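import Fermat.Agent.LT.A2.H124.PairCore

/-!
# Row LT, tower A2, leaf A2.03.8.5.1 `H254.PairC254` (helper124)

OFF-MAIN.  `pairC124 : H254.PairC254`, VERBATIM against `LT/A2/H254/RecSplitSpec.lean`
(helper254@51dfc4e4e, sha256 947dfa59, byte-identical copy).  Mathlib + `LT/H129` + the Spec
closure only.  Nothing is assumed.

At a split place `v ∤ π.level` take the integral element `m₁ ∈ T(K_v)` of `IsSplitAt142`
(`det m₁` a uniformiser), correct its determinant by `κ ∈ T(𝒪_v)` with `det κ = ϖ / det m₁`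
(`IsStd.good_norm`): `μ = m₁ κ`.  `μ̄` is the adjugate of `μ`.  If `μ⁻¹ μ̄` were integral at `v`
then `(adj μ_v)² = ϖ Y` with `Y` integral, and the entry `(1, 0)`, which is `-y (2x + t y)` for
`μ_v = x + y M_ω`, would be divisible by `ϖ`: impossible by `pair_core124` (the discriminant
`t² - 4n` is a unit at `v`: `good_int`).
-/

set_option autoImplicit false

open IsDedekindDomain NumberField AutomorphicForm MeasureTheory
open scoped MatrixGroups

noncomputable section

namespace Fermat.Agent.LT.A2.H124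

open Fermat.Agent.LT.H556 Fermat.Agent.LT.H556.A0 Fermat.Agent.LT.H129
open Fermat.Agent.LT.A2 Fermat.Agent.LT.A2.H142 Fermat.Agent.LT.A2.H254

variable {K : Type} [Field K] [NumberField K]

/-! ## Components -/

theorem evF_algebraMap124 (v : HeightOneSpectrum (𝓞 K)) (x : K) :
    evF129 v (algebraMap K (Adl K) x) = algebraMap K (v.adicCompletion K) x := rfl

theorem finComp_eq_map124 (v : HeightOneSpectrum (𝓞 K)) (g : G K) :
    finComp v g = (g : Matrix (Fin 2) (Fin 2) (Adl K)).map (evF129 v) := rfl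

theorem finComp_mul124 (v : HeightOneSpectrum (𝓞 K)) (g h : G K) :
    finComp v (g * h) = finComp v g * finComp v h := by
  rw [← coe_finCompHom129, ← coe_finCompHom129, ← coe_finCompHom129, map_mul]
  rfl

theorem det_finComp124 (v : HeightOneSpectrum (𝓞 K)) (g : G K) :
    (finComp v g).det
      = ((Matrix.GeneralLinearGroup.det g : (Adl K)ˣ) : Adl K).2 v := by
  rw [finComp_eq_map124]
  have h := RingHom.map_det (evF129 v) (g : Matrix (Fin 2) (Fin 2) (Adl K))
  rw [RingHom.mapMatrix_apply] at h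
  rw [← h]
  rfl

/-! ## The torus -/

theorem inTorus_mul124 {t n : K} {m m' : G K} (h : InTorus t n m) (h' : InTorus t n m') :
    InTorus t n (m * m') := by
  obtain ⟨a, b, hab⟩ := h
  obtain ⟨c, d, hcd⟩ := h'
  exact ⟨a * c - algebraMap K (Adl K) n * (b * d),
    a * d + b * c + algebraMap K (Adl K) t * (b * d), by
      rw [Matrix.GeneralLinearGroup.coe_mul, hab, hcd, torMat_mul124]⟩

/-- The component at `v` of an element of the torus, in torus coordinates. -/
theorem finComp_torus124 {t n : K} {m : G K} (h : InTorus t n m)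
    (v : HeightOneSpectrum (𝓞 K)) :
    ∃ x y : v.adicCompletion K, finComp v m
      = torMat (algebraMap K (v.adicCompletion K) t) (algebraMap K (v.adicCompletion K) n) x y := by
  obtain ⟨a, b, hab⟩ := h
  refine ⟨evF129 v a, evF129 v b, ?_⟩
  rw [finComp_eq_map124, hab, torMat_map124, evF_algebraMap124, evF_algebraMap124]

/-! ## The idele with a given component at `v` -/

/-- The idele with component `u` at `v` and `1` elsewhere. -/
def unitIdele124 (v : HeightOneSpectrum (𝓞 K)) (u : v.adicCompletion K) (hu : u ≠ 0) :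
    (Adl K)ˣ where
  val := (1, finSingle129 v true u)
  inv := (1, finSingle129 v true u⁻¹)
  val_inv := by
    refine adele_ext129 (fun w => ?_) (fun v' => ?_)
    · show ((1 : InfiniteAdeleRing K) * 1) w = (1 : InfiniteAdeleRing K) w
      rw [mul_one]
    · show finSingle129 v true u v' * finSingle129 v true u⁻¹ v' = 1
      by_cases h : v' = v
      · subst h
        rw [finSingle129_same, finSingle129_same, mul_inv_cancel₀ hu]
      · rw [finSingle129_of_ne v _ _ h, finSingle129_of_ne v _ _ h]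
        simp
  inv_val := by
    refine adele_ext129 (fun w => ?_) (fun v' => ?_)
    · show ((1 : InfiniteAdeleRing K) * 1) w = (1 : InfiniteAdeleRing K) w
      rw [mul_one]
    · show finSingle129 v true u⁻¹ v' * finSingle129 v true u v' = 1
      by_cases h : v' = v
      · subst h
        rw [finSingle129_same, finSingle129_same, inv_mul_cancel₀ hu]
      · rw [finSingle129_of_ne v _ _ h, finSingle129_of_ne v _ _ h]
        simp

theorem unitIdele124_same (v : HeightOneSpectrum (𝓞 K)) (u : v.adicCompletion K) (hu : u ≠ 0) :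
    ((unitIdele124 v u hu : (Adl K)ˣ) : Adl K).2 v = u :=
  finSingle129_same v true u

theorem unitIdele124_isIdeleAt (v : HeightOneSpectrum (𝓞 K)) (u : v.adicCompletion K)
    (hu : u ≠ 0) : IsIdeleAt v (unitIdele124 v u hu) := by
  refine ⟨fun w => rfl, fun v' h => ?_⟩
  show finSingle129 v true u v' = 1
  rw [finSingle129_of_ne v _ _ h]
  simp

/-! ## The adjugate -/

/-- The adjugate of `g ∈ GL₂(𝔸_K)`, as an element of `GL₂(𝔸_K)`. -/
def adjG124 (g : G K) : G K where
  val := (g : Matrix (Fin 2) (Fin 2) (Adl K)).adjugate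
  inv := ((g⁻¹ : G K) : Matrix (Fin 2) (Fin 2) (Adl K)).adjugate
  val_inv := by
    rw [← Matrix.adjugate_mul_distrib, ← Matrix.GeneralLinearGroup.coe_mul, inv_mul_cancel]
    simp
  inv_val := by
    rw [← Matrix.adjugate_mul_distrib, ← Matrix.GeneralLinearGroup.coe_mul, mul_inv_cancel]
    simp

theorem coe_adjG124 (g : G K) :
    ((adjG124 g : G K) : Matrix (Fin 2) (Fin 2) (Adl K))
      = (g : Matrix (Fin 2) (Fin 2) (Adl K)).adjugate := rfl

theorem finComp_adjG124 (v : HeightOneSpectrum (𝓞 K)) (g : G K) :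
    finComp v (adjG124 g) = (finComp v g).adjugate := by
  rw [finComp_eq_map124, finComp_eq_map124, coe_adjG124]
  have h := RingHom.map_adjugate (evF129 v) (g : Matrix (Fin 2) (Fin 2) (Adl K))
  rw [RingHom.mapMatrix_apply, RingHom.mapMatrix_apply] at h
  exact h

theorem finCompHom_adjG124_of_triv (v : HeightOneSpectrum (𝓞 K)) (g : G K)
    (h : finCompHom129 v g = 1) : finCompHom129 v (adjG124 g) = 1 := by
  apply Units.ext
  rw [coe_finCompHom129, finComp_adjG124, ← coe_finCompHom129, h]
  simp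

theorem infCompHom_adjG124_of_triv (w : InfinitePlace K) (g : G K)
    (h : infCompHom129 w g = 1) : infCompHom129 w (adjG124 g) = 1 := by
  apply Units.ext
  rw [coe_infCompHom129_map, coe_adjG124]
  have h2 := RingHom.map_adjugate (evI129 w) (g : Matrix (Fin 2) (Fin 2) (Adl K))
  rw [RingHom.mapMatrix_apply, RingHom.mapMatrix_apply] at h2
  rw [h2, ← coe_infCompHom129_map, h]
  simp

theorem isLocalAtFin_adjG124 {v : HeightOneSpectrum (𝓞 K)} {g : G K} (h : IsLocalAtFin v g) :
    IsLocalAtFin v (adjG124 g) := by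
  rw [isLocalAtFin_iff129] at *
  exact ⟨fun w => infCompHom_adjG124_of_triv w g (h.1 w),
    fun v' hv => finCompHom_adjG124_of_triv v' g (h.2 v' hv)⟩

theorem inTorus_adjG124 {t n : K} {g : G K} (h : InTorus t n g) : InTorus t n (adjG124 g) := by
  obtain ⟨a, b, hab⟩ := h
  exact ⟨a + algebraMap K (Adl K) t * b, -b, by
    rw [coe_adjG124, hab, torMat_adjugate124]⟩

theorem isIntegralAt_adjG124 {v : HeightOneSpectrum (𝓞 K)} {g : G K} (h : IsIntegralAt v g) :
    IsIntegralAt v (adjG124 g) := by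
  intro i j
  rw [finComp_adjG124, Matrix.adjugate_fin_two]
  fin_cases i <;> fin_cases j
  · simpa using h 1 1
  · simpa using neg_mem (h 0 1)
  · simpa using neg_mem (h 1 0)
  · simpa using h 0 0

theorem isIntegralAt_mul124 {v : HeightOneSpectrum (𝓞 K)} {g h : G K} (hg : IsIntegralAt v g)
    (hh : IsIntegralAt v h) : IsIntegralAt v (g * h) := by
  intro i j
  rw [finComp_mul124, Matrix.mul_apply]
  exact sum_mem fun k _ => mul_mem (hg i k) (hh k j)

/-- If `adj M = M Y` for `M = x + y M_ω` of determinant `ϖ`, then the entry `(1, 0)` of `ϖ Y` is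
`- y (2 x + T y)`. -/
theorem adj_entry124 {F : Type*} [Field F] (T N x y ϖ : F) (M Y : Matrix (Fin 2) (Fin 2) F)
    (hM : M = torMat T N x y) (hdet : M.det = ϖ) (hadj : M.adjugate = M * Y) :
    y * (2 * x + T * y) = -(ϖ * Y 1 0) := by
  have hsq : M.adjugate * M.adjugate = ϖ • Y := by
    calc M.adjugate * M.adjugate = M.adjugate * (M * Y) := by rw [← hadj]
      _ = (M.adjugate * M) * Y := by rw [mul_assoc]
      _ = ϖ • Y := by rw [Matrix.adjugate_mul, hdet, Matrix.smul_mul, one_mul]
  have hentry := congrFun (congrFun hsq 1) 0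
  rw [hM, torMat_adjugate124, torMat_mul124] at hentry
  have h2 : (ϖ • Y) 1 0 = ϖ * Y 1 0 := rfl
  rw [h2] at hentry
  rw [← hentry]
  simp [torMat]
  ring

/-! ## The leaf -/

/-- **A2.03.8.5.1 PAIR**: at a split place there is a split pair for every uniformiser. -/
theorem pairC124 : PairC254 := by
  intro K _ _ D η W v hctx hsplit ϖ hϖ
  obtain ⟨m₁, hm₁tor, hm₁loc, hm₁int, hm₁det⟩ := hsplit
  have hϖ0 : ϖ ≠ 0 := unif_ne_zero129 v hϖ
  have hd0 : (finComp v m₁).det ≠ 0 := by
    intro h0
    rw [h0, map_zero] at hm₁det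
    exact WithZero.exp_ne_zero hm₁det.symm
  -- the unit `u = ϖ / det m₁`
  set u : v.adicCompletion K := ϖ / (finComp v m₁).det with hu
  have hu0 : u ≠ 0 := div_ne_zero hϖ0 hd0
  have huv : Valued.v u = 1 := by
    rw [hu, map_div₀, hϖ, hm₁det]
    exact div_self WithZero.exp_ne_zero
  have hunit : IsUnitIdeleAt v (unitIdele124 v u hu0) :=
    ⟨unitIdele124_isIdeleAt v u hu0, by rw [unitIdele124_same]; exact huv⟩
  obtain ⟨κ, ⟨hκtor, hκloc, hκint, _⟩, hκdet⟩ := hctx.std.good_norm v hctx.hv _ hunit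
  have hκd : (finComp v κ).det = u := by
    rw [det_finComp124, hκdet, unitIdele124_same]
  -- `μ = m₁ κ`
  have hμtor : InTorus D.t D.n (m₁ * κ) := inTorus_mul124 hm₁tor hκtor
  have hμloc : IsLocalAtFin v (m₁ * κ) := isLocalAtFin_mul129 hm₁loc hκloc
  have hμint : IsIntegralAt v (m₁ * κ) := isIntegralAt_mul124 hm₁int hκint
  have hμdet : (finComp v (m₁ * κ)).det = ϖ := by
    rw [finComp_mul124, Matrix.det_mul, hκd, hu, mul_div_cancel₀ _ hd0]
  refine ⟨m₁ * κ, adjG124 (m₁ * κ), hμtor, inTorus_adjG124 hμtor, hμloc,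
    isLocalAtFin_adjG124 hμloc, hμint, isIntegralAt_adjG124 hμint, hμdet, ?_, ?_, ?_⟩
  · -- `det μ̄_v = ϖ`
    rw [finComp_adjG124, Matrix.det_adjugate, hμdet]
    simp
  · -- `μ_v μ̄_v = ϖ`
    rw [finComp_adjG124, Matrix.mul_adjugate, hμdet]
    exact Matrix.smul_one_eq_diagonal ϖ
  · -- `μ⁻¹ μ̄` is not integral at `v`
    intro hY
    obtain ⟨x, y, hxy⟩ := finComp_torus124 hμtor v
    set T : v.adicCompletion K := algebraMap K (v.adicCompletion K) D.t with hT
    set N : v.adicCompletion K := algebraMap K (v.adicCompletion K) D.n with hN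
    obtain ⟨hTi, hNi, hdisc⟩ := hctx.std.good_int v hctx.hv
    have hdisc' : Valued.v (T ^ 2 - 4 * N) = 1 := by
      have h4 : algebraMap K (v.adicCompletion K) (D.t ^ 2 - 4 * D.n) = T ^ 2 - 4 * N := by
        rw [map_sub, map_pow, map_mul, map_ofNat]
      rw [← h4]
      exact hdisc
    -- `adj μ_v = μ_v Y`
    have hadj : (finComp v (m₁ * κ)).adjugate
        = finComp v (m₁ * κ) * finComp v ((m₁ * κ)⁻¹ * adjG124 (m₁ * κ)) := by
      rw [← finComp_mul124, mul_inv_cancel_left, finComp_adjG124]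
    have he := adj_entry124 T N x y ϖ _ _ hxy hμdet hadj
    have hx : Valued.v x ≤ 1 := by
      have := hμint 0 0
      rw [hxy] at this
      have h2 : x ∈ v.adicCompletionIntegers K := by simpa [torMat] using this
      exact (HeightOneSpectrum.mem_adicCompletionIntegers (𝓞 K) K v).mp h2
    have hy : Valued.v y ≤ 1 := by
      have := hμint 1 0
      rw [hxy] at this
      have h2 : y ∈ v.adicCompletionIntegers K := by simpa [torMat] using this
      exact (HeightOneSpectrum.mem_adicCompletionIntegers (𝓞 K) K v).mp h2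
    have hdet' : x ^ 2 + T * x * y + N * y ^ 2 = ϖ := by
      rw [← hμdet, hxy, torMat_det124]
    have hYint : Valued.v (finComp v ((m₁ * κ)⁻¹ * adjG124 (m₁ * κ)) 1 0) ≤ 1 := hY 1 0
    refine pair_core124 (Valued.v : Valuation (v.adicCompletion K) _) T N x y ϖ hTi hNi hdisc'
      hx hy hdet' hϖ ?_
    rw [he, Valuation.map_neg, map_mul, hϖ]
    calc WithZero.exp (-1 : ℤ) * Valued.v (finComp v ((m₁ * κ)⁻¹ * adjG124 (m₁ * κ)) 1 0)
        ≤ WithZero.exp (-1 : ℤ) * 1 := mul_le_mul' le_rfl hYint
      _ = WithZero.exp (-1 : ℤ) := mul_one _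

end Fermat.Agent.LT.A2.H124

end
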