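import Fermat.Agent.LT.A2.H254.RecSplitSpec

/-!
# Row LT, tower A2, leaf A2.03.8.5.1 `H254.PairC254` -- part 1: algebra and valuations (helper124)

OFF-MAIN.  Mathlib + the Spec closure of `LT/A2/H254/RecSplitSpec.lean` (helper254, byte-identical
copy).  Nothing is assumed.

* `torMat` is closed under multiplication and adjugation, `det (a + b M) = a² + t a b + n b²`;
* `pair_core124`: in a field with a valuation with values in `ℤᵐ⁰`, if `t`, `n` are integral,
  `t² - 4n` is a unit, `x`, `y` are integral and `x² + t x y + n y² = ϖ` is a uniformiser, then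
  `v (y (2 x + t y)) ≤ exp (-1)` is impossible (`y` is a unit, so the trace `s = 2x + t y` would
  have positive valuation, against `s² - 4ϖ = y² (t² - 4n)`).
-/

set_option autoImplicit false

open scoped Matrix

noncomputable section

namespace Fermat.Agent.LT.A2.H124

open Fermat.Agent.LT.A2

/-! ## `torMat` -/

section TorMat

variable {R : Type*} [CommRing R]

theorem torMat_mul124 (t n a b c d : R) :
    torMat t n a b * torMat t n c d
      = torMat t n (a * c - n * (b * d)) (a * d + b * c + t * (b * d)) := by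
  unfold torMat
  rw [Matrix.mul_fin_two]
  refine Matrix.ext fun i j => ?_
  fin_cases i <;> fin_cases j <;> simp <;> ring

theorem torMat_adjugate124 (t n a b : R) :
    (torMat t n a b).adjugate = torMat t n (a + t * b) (-b) := by
  unfold torMat
  rw [Matrix.adjugate_fin_two_of]
  refine Matrix.ext fun i j => ?_
  fin_cases i <;> fin_cases j <;> simp

theorem torMat_det124 (t n a b : R) :
    (torMat t n a b).det = a ^ 2 + t * a * b + n * b ^ 2 := by
  unfold torMat
  rw [Matrix.det_fin_two_of]
  ring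

theorem torMat_map124 {S : Type*} [CommRing S] (f : R →+* S) (t n a b : R) :
    (torMat t n a b).map f = torMat (f t) (f n) (f a) (f b) := by
  unfold torMat
  refine Matrix.ext fun i j => ?_
  fin_cases i <;> fin_cases j <;> simp

theorem torMat_one124 (t n : R) : torMat t n 1 0 = 1 := by
  unfold torMat
  refine Matrix.ext fun i j => ?_
  fin_cases i <;> fin_cases j <;> simp

end TorMat

/-! ## The valuation argument -/

section Val

open WithZero

variable {F : Type*} [Field F] (val : Valuation F (WithZero (Multiplicative ℤ)))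

theorem lt_one_iff_le_exp124 (a : WithZero (Multiplicative ℤ)) :
    a < 1 ↔ a ≤ exp (-1 : ℤ) := by
  have h := WithZero.lt_mul_exp_iff_le (x := a) (y := exp (-1 : ℤ)) exp_ne_zero
  rw [← exp_add] at h
  simpa using h

theorem exp_neg_one_lt_one124 : (exp (-1 : ℤ) : WithZero (Multiplicative ℤ)) < 1 := by
  rw [← exp_zero, exp_lt_exp]; norm_num

/-- `v(x²) < 1 ⇒ v(x) < 1`. -/
theorem val_lt_one_of_sq124 {x : F} (h : val (x ^ 2) < 1) : val x < 1 := by
  by_contra hx
  rw [not_lt] at hx
  have : (1 : WithZero (Multiplicative ℤ)) ≤ val (x ^ 2) := by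
    rw [map_pow]
    exact one_le_pow₀ hx
  exact absurd h (not_lt.mpr this)

/-- A product of two elements of valuation `≤ exp (-1)` has valuation `≤ exp (-2)`. -/
theorem val_mul_le_exp2_124 {x y : F} (hx : val x ≤ exp (-1 : ℤ)) (hy : val y ≤ exp (-1 : ℤ)) :
    val (x * y) ≤ exp (-2 : ℤ) := by
  rw [map_mul, show (-2 : ℤ) = -1 + -1 by norm_num, exp_add]
  exact mul_le_mul' hx hy

/-- **The core**: the element `x + y ω` of norm a uniformiser is not divisible by its conjugate
up to a unit. -/
theorem pair_core124 (T N x y ϖ : F) (hT : val T ≤ 1) (hN : val N ≤ 1)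
    (hdisc : val (T ^ 2 - 4 * N) = 1) (hx : val x ≤ 1) (hy : val y ≤ 1)
    (hdet : x ^ 2 + T * x * y + N * y ^ 2 = ϖ) (hϖ : val ϖ = exp (-1 : ℤ))
    (h : val (y * (2 * x + T * y)) ≤ exp (-1 : ℤ)) : False := by
  have he : (exp (-1 : ℤ) : WithZero (Multiplicative ℤ)) < 1 := exp_neg_one_lt_one124
  -- Step A: `y` is a unit
  have hy1 : val y = 1 := by
    by_contra hne
    have hylt : val y < 1 := lt_of_le_of_ne hy hne
    have hyle : val y ≤ exp (-1 : ℤ) := (lt_one_iff_le_exp124 _).mp hylt
    -- `x² = ϖ - y (T x + N y)`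
    have hTxNy : val (T * x + N * y) ≤ 1 := by
      refine le_trans (val.map_add _ _) (max_le ?_ ?_)
      · rw [map_mul]; exact mul_le_one' hT hx
      · rw [map_mul]; exact mul_le_one' hN hy
    have hx2 : x ^ 2 = ϖ - y * (T * x + N * y) := by rw [← hdet]; ring
    have hx2lt : val (x ^ 2) < 1 := by
      rw [hx2]
      refine lt_of_le_of_lt (val.map_sub _ _) (max_lt ?_ ?_)
      · rw [hϖ]; exact he
      · rw [map_mul]
        calc val y * val (T * x + N * y) ≤ val y * 1 := mul_le_mul' le_rfl hTxNy
          _ = val y := mul_one _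
          _ < 1 := hylt
    have hxlt : val x < 1 := val_lt_one_of_sq124 val hx2lt
    have hxle : val x ≤ exp (-1 : ℤ) := (lt_one_iff_le_exp124 _).mp hxlt
    -- then `ϖ` has valuation `≤ exp (-2)`
    have h1 : val (x ^ 2) ≤ exp (-2 : ℤ) := by
      rw [pow_two]; exact val_mul_le_exp2_124 val hxle hxle
    have h2 : val (T * x * y) ≤ exp (-2 : ℤ) := by
      rw [mul_assoc, map_mul]
      calc val T * val (x * y) ≤ 1 * val (x * y) := mul_le_mul' hT le_rfl
        _ = val (x * y) := one_mul _
        _ ≤ exp (-2 : ℤ) := val_mul_le_exp2_124 val hxle hyle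
    have h3 : val (N * y ^ 2) ≤ exp (-2 : ℤ) := by
      rw [pow_two, map_mul]
      calc val N * val (y * y) ≤ 1 * val (y * y) := mul_le_mul' hN le_rfl
        _ = val (y * y) := one_mul _
        _ ≤ exp (-2 : ℤ) := val_mul_le_exp2_124 val hyle hyle
    have h4 : val ϖ ≤ exp (-2 : ℤ) := by
      rw [← hdet]
      refine le_trans (val.map_add _ _) (max_le ?_ h3)
      exact le_trans (val.map_add _ _) (max_le h1 h2)
    rw [hϖ, exp_le_exp] at h4
    norm_num at h4
  -- Step B: the trace `s = 2 x + T y` has valuation `< 1`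
  have hs : val (2 * x + T * y) ≤ exp (-1 : ℤ) := by
    rw [map_mul, hy1, one_mul] at h
    exact h
  have hslt : val (2 * x + T * y) < 1 := lt_of_le_of_lt hs he
  -- Step C: `s² - 4 ϖ = y² (T² - 4 N)`
  have hid : (2 * x + T * y) ^ 2 - 4 * ϖ = y ^ 2 * (T ^ 2 - 4 * N) := by
    rw [← hdet]; ring
  have hR : val (y ^ 2 * (T ^ 2 - 4 * N)) = 1 := by
    rw [map_mul, map_pow, hy1, hdisc]; simp
  have h4 : val (4 : F) ≤ 1 := by
    have h2 : val (2 : F) ≤ 1 := by
      have : (2 : F) = 1 + 1 := by norm_num
      rw [this]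
      exact le_trans (val.map_add _ _) (max_le (le_of_eq val.map_one) (le_of_eq val.map_one))
    have : (4 : F) = 2 * 2 := by norm_num
    rw [this, map_mul]
    exact mul_le_one' h2 h2
  have hL : val ((2 * x + T * y) ^ 2 - 4 * ϖ) < 1 := by
    refine lt_of_le_of_lt (val.map_sub _ _) (max_lt ?_ ?_)
    · rw [map_pow, pow_two]
      calc val (2 * x + T * y) * val (2 * x + T * y) ≤ 1 * val (2 * x + T * y) :=
            mul_le_mul' hslt.le le_rfl
        _ = val (2 * x + T * y) := one_mul _
        _ < 1 := hslt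
    · rw [map_mul, hϖ]
      calc val (4 : F) * exp (-1 : ℤ) ≤ 1 * exp (-1 : ℤ) := mul_le_mul' h4 le_rfl
        _ = exp (-1 : ℤ) := one_mul _
        _ < 1 := he
  rw [hid, hR] at hL
  exact lt_irrefl _ hL

end Val

end Fermat.Agent.LT.A2.H124

end
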